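/-
Row 37 (S43), block OPS (architect helper297), sub-block OPS-N (helper227).  GENERIC LAYER.

`isRep_alphaB_normAlong` : for `F₀ ≤ F₀'` of groups `H ≥ H'`, the operator `π^* π_* = alphaB ∘ Norm` of `FB F₀'` is
represented (in the sense of `Ops/Rel/Rep.lean`) by any system of representatives `γ i` of `H' \ H`.
`isRep_U` : an operator with the `q`-expansion of `U_q` (`UOp`) is represented by `(1 j; 0 q)`, `j : ZMod q`.
-/
import Fermat.Agent.S43.Ops.Rel.Rep
import Fermat.Agent.S43.Ops.U.Defs
import Fermat.Agent.S48.BB.M.Inst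

set_option autoImplicit false

noncomputable section

namespace Fermat.Agent.S43.Ops.New

open ModularCurve UpperHalfPlane AlgebraicCurve
open Fermat.Agent.S24 Fermat.Agent.S24.B Fermat.Agent.GAL.Mult Fermat.Agent.S48.BB
  Fermat.Agent.S48.BB.U Fermat.Agent.S48.BB.T Fermat.Agent.S43.Ops.Rel
open Fermat.Agent.S37.HeckeInputs
open scoped MatrixGroups

/-- shortcut instance (the generic search times out) -/
local instance instDMANew : DistribMulAction GL(2, ℝ)⁺ MM := instActionMM.toDistribMulAction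

/-- shortcut instance (the generic search times out) -/
local instance instMANew : MulAction GL(2, ℝ)⁺ MM := instDMANew.toMulAction

/-- shortcut instance (the generic search times out) -/
local instance instSANew : SemigroupAction GL(2, ℝ)⁺ MM := instMANew.toSemigroupAction

variable {F₀ F₀' : IntermediateField ℚ (LaurentSeries ℚ)} {H H' : Subgroup SL(2, ℤ)}
  {N' : ℕ} [NeZero N']

/-- `real` is compatible with the inclusion. -/
theorem real_alphaB (hL₁ : IsLvl F₀ H N') (hL' : IsLvl F₀' H' N') (hF : F₀ ≤ F₀') (v : FB F₀) :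
    real hL' (alphaB hF v) = real hL₁ v := by
  rw [U.real_apply, U.real_apply, Psi_alphaB hL₁ hL' hF]

/-- **The product formula for the norm**: `π^* π_* y = ∏ i, y ∘ γ i`, `γ i` representatives of
`H' \ H`. -/
theorem isRep_alphaB_normAlong (hL₁ : IsLvl F₀ H N') (hL' : IsLvl F₀' H' N') (hF : F₀ ≤ F₀')
    {ι : Type*} [Fintype ι] (γ : ι → SL(2, ℤ)) (hγ : ∀ i, γ i ∈ H)
    (hcov : ∀ g ∈ H, ∃ i, γ i * g ∈ H') (hdisj : ∀ i j, γ i * (γ j)⁻¹ ∈ H' → i = j) :
    IsRep hL' (fun y => alphaB hF (normAlong (alphaB hF) y)) (fun i => sl (γ i)) := by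
  intro y
  have := finiteIndex hL₁
  have := finiteIndex hL'
  have hU' : IsUniformization (alphaB hF (jB hL₁)) H' (Psi hL') := by
    rw [alphaB_jB hL₁ hL' hF]
    exact isUniformization hL'
  rw [real_alphaB hL₁ hL' hF, U.real_apply,
    Psi_normAlong_eq_prod (alphaB hF) (isUniformization hL₁) hU'
    (exists_finset_adjoin_eq_top hL₁) (exists_finset_adjoin_eq_top hL')
    (Psi_alphaB hL₁ hL' hF) (fun i => (γ i)⁻¹) (fun i => inv_mem (hγ i))
    (fun g hg => by simpa using hcov g hg) (fun i j h => hdisj i j (by simpa using h)), map_prod]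
  refine Finset.prod_congr rfl fun i _ => ?_
  rw [embL_smul, map_inv, U.real_apply]

/-- `U_q` is represented by the matrices `(1 j; 0 q)`. -/
theorem isRep_U {N : ℕ} [NeZero N] (hL : IsLvl F₀ H N) (hT : ModularGroup.T ∈ H) {q : ℕ} [NeZero q]
    (X : U.UOp F₀ q) : IsRep hL X.U (fun j : ZMod q => M.gU q j.val) := by
  intro u
  have h1 := M.isNice_real hL hT (1 : FB F₀)
  have h := (M.isNice_real hL hT u).eq_smul_mul_prod (ℓ := q) h1 (M.isNice_real hL hT (X.U u)) (by
    rw [X.qExpand_U, M.Q2]
    simp)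
  rw [h, map_one, smul_one, one_mul]

end Fermat.Agent.S43.Ops.New

end
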