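/-
Row 37 (S43), block OPS, sub-block OPS-N (helper227).  THE ATKIN-LEHNER INVOLUTION AT LEVEL `Γ₀(q M)`.

`w0 hc : FB F0 ≃ₐ FB F0`, `F0 = modularFunctionFieldFull (q * M)`, is `u ↦ u ∘ wMat q M`, the SAME matrix as helper297's
`w hc` on `FB (F1Q q M)` (`Ops/W/Defs.lean`).
* `real_w0`, `w0_w0`;
* `w_alphaB`   : `w hc` restricts to `w0 hc`;  `wW_piUp`, `piDown_wW` : `π^*`, `π_*` (levels `F0 ≤ F1`) intertwine `w0`, `w`;
* `isRep_T`    : a `HeckeOp1` whose diamond is `u ↦ u ∘ σ` is represented by `Rel.aT l σ`;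
* `w0_T`, `w0W_TW` : `w0` commutes with `T_l` (`l ∤ q M`, trivial diamond).
-/
import Fermat.Agent.S43.Ops.W.Defs
import Fermat.Agent.S43.Ops.Rel.Main
import Fermat.Agent.S43.Ops.Pi.Kum
import Fermat.Agent.S43.Ops.New.Norm

set_option autoImplicit false

noncomputable section

namespace Fermat.Agent.S43.Ops.New

open ModularCurve UpperHalfPlane AlgebraicCurve CongruenceSubgroup
open Fermat.Agent.S24 Fermat.Agent.S24.B Fermat.Agent.GAL.Mult Fermat.Agent.S48.A
  Fermat.Agent.S48.BB Fermat.Agent.S48.BB.U Fermat.Agent.S48.BB.T Fermat.Agent.S48.BB.H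
  Fermat.Agent.S43.Ops.Rel Fermat.Agent.S48.BB.M Fermat.Agent.S48.BB.E
open Fermat.Agent.S37.HeckeInputs
open scoped MatrixGroups OnePoint

/-- shortcut instance (the generic search times out) -/
local instance instDMANewW : DistribMulAction GL(2, ℝ)⁺ MM := instActionMM.toDistribMulAction

/-- shortcut instance (the generic search times out) -/
local instance instMANewW : MulAction GL(2, ℝ)⁺ MM := instDMANewW.toMulAction

/-- shortcut instance (the generic search times out) -/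
local instance instSANewW : SemigroupAction GL(2, ℝ)⁺ MM := instMANewW.toSemigroupAction

variable {q M : ℕ} [NeZero q] [NeZero M]

theorem glNrm0_wG (hc : Nat.Coprime q M) : GLNrm (Gamma0 (q * M)) (wG hc) := by
  intro γ hγ
  obtain ⟨δ, hδ, -, h⟩ := exists_conj hc hγ
  exact ⟨δ, hδ, wG_mul_sl hc h⟩

theorem eqv0_wG_sq (hc : Nat.Coprime q M) : Eqv (Gamma0 (q * M)) (wG hc * wG hc) 1 :=
  (eqv_wG_sq hc).mono H1_le_Gamma0'

/-- **The Atkin-Lehner involution** `w_q` of `FB (modularFunctionFieldFull (q * M))`. -/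
def w0 (hc : Nat.Coprime q M) :
    FB (modularFunctionFieldFull (q * M)) ≃ₐ[Kbar] FB (modularFunctionFieldFull (q * M)) :=
  glInv (hL0 q M) (rfl : q * M * q = q * M * q) (isIntLevel_wG hc) (glNrm0_wG hc) (eqv0_wG_sq hc)

theorem real_w0 (hc : Nat.Coprime q M) (u : FB (modularFunctionFieldFull (q * M))) :
    real (hL0 q M) (w0 hc u) = (wG hc)⁻¹ • real (hL0 q M) u :=
  real_glHom (hL0 q M) rfl (isIntLevel_wG hc) (glNrm0_wG hc) u

theorem w0_w0 (hc : Nat.Coprime q M) (u : FB (modularFunctionFieldFull (q * M))) :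
    w0 hc (w0 hc u) = u :=
  glHom_glHom_of_eqv (hL0 q M) rfl (isIntLevel_wG hc) (glNrm0_wG hc) (isIntLevel_wG hc)
    (glNrm0_wG hc) (eqv0_wG_sq hc) u

/-- `w` restricts to `w0`. -/
theorem w_alphaB (hc : Nat.Coprime q M) (u : FB (modularFunctionFieldFull (q * M))) :
    w hc (alphaB (F0_le_F1 q M) u) = alphaB (F0_le_F1 q M) (w0 hc u) := by
  apply real_injective (hL1 q M)
  rw [real_w, real_alphaB (hL0 q M) (hL1 q M), real_alphaB (hL0 q M) (hL1 q M), real_w0]

theorem w0W_w0W (hc : Nat.Coprime q M) (n : ℕ) (x : W1 (modularFunctionFieldFull (q * M)) n) :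
    autW (w0 hc) n (autW (w0 hc) n x) = x := by
  obtain ⟨u, rfl⟩ := cls_surjective x
  rw [autW_cls, autW_cls]
  refine congrArg cls (Subtype.ext (Units.ext ?_))
  exact w0_w0 hc _

theorem wW_piUp (hc : Nat.Coprime q M) (X : Pi.Pair (modularFunctionFieldFull (q * M)) (F1Q q M))
    (n : ℕ) (x : W1 (modularFunctionFieldFull (q * M)) n) :
    autW (w hc) n (Pi.piUp X n x) = Pi.piUp X n (autW (w0 hc) n x) := by
  obtain ⟨u, rfl⟩ := cls_surjective x
  rw [Pi.piUp_cls, autW_cls, autW_cls, Pi.piUp_cls]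
  refine congrArg cls (Subtype.ext (Units.ext ?_))
  exact w_alphaB hc _

theorem piDown_wW (hc : Nat.Coprime q M) (X : Pi.Pair (modularFunctionFieldFull (q * M)) (F1Q q M))
    (n : ℕ) (x : W1 (F1Q q M) n) :
    Pi.piDown X n (autW (w hc) n x) = autW (w0 hc) n (Pi.piDown X n x) := by
  obtain ⟨u, rfl⟩ := cls_surjective x
  rw [Pi.piDown_cls, autW_cls, autW_cls, Pi.piDown_cls]
  refine congrArg cls (Subtype.ext (Units.ext ?_))
  exact Pi.normAlong_ringEquiv (alphaB X.le) (w0 hc).toRingEquiv (w hc).toRingEquiv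
    (w_alphaB hc) _

/-! ### `T_l` -/

/-- A `HeckeOp1` whose diamond operator is `u ↦ u ∘ σ` is represented by `aT l σ`. -/
theorem isRep_T {F₀ : IntermediateField ℚ (LaurentSeries ℚ)} {H : Subgroup SL(2, ℤ)} {N : ℕ}
    [NeZero N] (hL : IsLvl F₀ H N) (hT : ModularGroup.T ∈ H) {l : ℕ} [NeZero l]
    (Y : HeckeOp1 F₀ l) {σ : SL(2, ℤ)} (hσ : ∀ u, Psi hL (Y.D u) = σ⁻¹ • Psi hL u) :
    IsRep hL Y.T (aT l σ) := fun u =>
  M.real_eq_prod_of_formal hL hT (hσ u) (Y.qExpand_T u) (rep1 l σ) (rep1_infty l σ)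
    (rep1_coe l σ) (det_rep1_pos l σ)

theorem isI_wG (hc : Nat.Coprime q M) : IsI (wG hc) (alMat q M (wx q M) (wy q M) 1 1) := by
  show (wMat q M).map (Int.cast : ℤ → ℝ) = _
  rw [wMat, alMat, mul_one, mul_one]

theorem wxy' (hc : Nat.Coprime q M) : (q : ℤ) * wx q M * 1 - M * wy q M * 1 = 1 := by
  linear_combination wxy hc

/-- an Atkin-Lehner matrix normalises `Γ₀(q M)` -/
theorem nrmG0_alMat {x y z t : ℤ} (hW : (q : ℤ) * x * t - M * y * z = 1)
    {g : GL(2, ℝ)⁺} (hg : IsI g (alMat q M x y z t)) : NrmG (Gamma0 (q * M)) g := by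
  intro δ hδ
  have hq0 : (q : ℤ) ≠ 0 := by exact_mod_cast NeZero.ne q
  have hW2 : (q : ℤ) * t * x - M * (-y) * (-z) = 1 := by linear_combination hW
  obtain ⟨B, hB, hB10, -, -, hBdet⟩ := conjW hW2 δ.1 (Rel.mem_Gamma0_iff_dvd.1 hδ)
  rw [neg_neg, neg_neg] at hB
  have hB1 : B.det = 1 := hBdet.trans δ.2
  refine ⟨⟨B, hB1⟩, Rel.mem_Gamma0_iff_dvd.2 hB10, ?_⟩
  refine IsI.eq ((isI_sl δ).mul hg) ?_
  have h1 : IsI (g * sl ⟨B, hB1⟩) (alMat q M x y z t * B) := hg.mul (isI_sl _)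
  have h2 : alMat q M x y z t * B = δ.1 * alMat q M x y z t := by
    have h3 : (q : ℤ) • (alMat q M x y z t * B) = (q : ℤ) • (δ.1 * alMat q M x y z t) := by
      rw [← Matrix.mul_smul, ← hB, ← Matrix.mul_assoc, ← Matrix.mul_assoc, alMat_mul_alMat q M hW,
        Matrix.smul_mul, Matrix.smul_mul, Matrix.one_mul]
    exact smul_right_injective _ hq0 h3
  rw [← h2]
  exact h1

/-- the adjugate matrix acts as the inverse -/
theorem smul_adj {x y z t : ℤ} (hW : (q : ℤ) * x * t - M * y * z = 1)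
    {g g' : GL(2, ℝ)⁺} (hg : IsI g (alMat q M x y z t)) (hg' : IsI g' (alMat q M t (-y) (-z) x))
    (r : MM) : g'⁻¹ • r = g • r := by
  have hq0 : (q : ℝ) ≠ 0 := by exact_mod_cast NeZero.ne q
  have h1 : ∀ τ : ℍ, (g * g') • τ = (1 : GL(2, ℝ)⁺) • τ := by
    refine smul_eq_of_val_eq hq0 ?_
    have h2 : IsI (g * g') (alMat q M x y z t * alMat q M t (-y) (-z) x) := hg.mul hg'
    rw [alMat_mul_alMat q M hW] at h2
    show mat (g * g') = _
    rw [h2]
    ext i j
    simp only [Matrix.map_apply, Matrix.smul_apply, smul_eq_mul, Int.cast_mul, Int.cast_natCast]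
    congr 1
    fin_cases i <;> fin_cases j <;> simp
  have h3 : ∀ τ : ℍ, g' • τ = g⁻¹ • τ := by
    intro τ
    have := h1 τ
    rw [one_smul, mul_smul] at this
    rw [eq_inv_smul_iff, this]
  rw [smul_MM_congr h3, inv_inv]

/-- **`w0` commutes with `T_l`** (functions). -/
theorem w0_T (hc : Nat.Coprime q M) {l : ℕ} [NeZero l] (hl : l.Prime) (hlN : ¬ l ∣ q * M)
    (Y : HeckeOp1 (modularFunctionFieldFull (q * M)) l) (hY : ∀ u, Y.D u = u)
    (u : FB (modularFunctionFieldFull (q * M))) : w0 hc (Y.T u) = Y.T (w0 hc u) := by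
  obtain ⟨d, hd⟩ := isUnit_cast_of_prime (q := q) (M := M) hl hlN
  have hW := wxy' hc
  have hdet' : 0 < (alMat q M 1 (-wy q M) (-1) (wx q M)).det := by
    rw [det_alMat q M (by linear_combination hW)]
    exact_mod_cast Nat.pos_of_ne_zero (NeZero.ne q)
  have hg' : IsI (glI _ hdet') (alMat q M 1 (-wy q M) (-1) (wx q M)) := rfl
  have hA : IsRep (hL0 q M) Y.T (aT l (sg q M d)) :=
    isRep_T (hL0 q M) NiceFrac.T_mem_Gamma0 Y fun u => by
      rw [hY, smul_Psi_of_mem (hL0 q M) _ (inv_mem (sg_mem q M d))]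
  have hW2 : ∀ u, real (hL0 q M) (w0 hc u) = (glI _ hdet')⁻¹ • real (hL0 q M) u := by
    intro u
    rw [smul_adj hW (isI_wG hc) hg']
    have := real_w0 hc (w0 hc u)
    rw [w0_w0] at this
    rw [this, smul_inv_smul]
  have key := al_T (H := Gamma0 (q * M)) (hL := hL0 q M) H1_le_Gamma0' hW (isI_wG hc) hg'
    (nrmG0_alMat hW (isI_wG hc)) hl hlN (sg_mem q M d) ((dd_sg q M d).trans hd)
    (sg_mem q M d⁻¹) (by rw [dd_sg, ← hd, Units.inv_mul]) hA (real_w0 hc) hW2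
    (D := id) (fun u => by
      rw [id, ← map_inv, smul_real_of_mem (hL0 q M) _ (inv_mem (sg_mem q M d⁻¹))]) (w0 hc u)
  rw [w0_w0] at key
  exact key

/-- **`w0` commutes with `T_l`** (Kummer modules). -/
theorem w0W_TW (hc : Nat.Coprime q M) {l : ℕ} [NeZero l] (hl : l.Prime) (hlN : ¬ l ∣ q * M)
    (Y : HeckeOp1 (modularFunctionFieldFull (q * M)) l) (hY : ∀ u, Y.D u = u) (n : ℕ)
    (x : W1 (modularFunctionFieldFull (q * M)) n) :
    autW (w0 hc) n (Y.TW n x) = Y.TW n (autW (w0 hc) n x) := by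
  obtain ⟨u, rfl⟩ := cls_surjective x
  rw [Y.TW_cls, autW_cls, autW_cls, Y.TW_cls]
  refine congrArg cls (Subtype.ext (Units.ext ?_))
  exact w0_T hc hl hlN Y hY _

end Fermat.Agent.S43.Ops.New

end
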