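/-
Row 37 (S43), block OPS (architect helper297), sub-block OPS-N (helper227).
GENERIC `π^*`, `π_*` on Kummer modules, for `F₀ ≤ F₀'` (both with an `IsLvl`).

* `upW hL hL' hF n : W1 F₀ n →+ W1 F₀' n`    (inclusion `alphaB hF`);
* `downW hL hL' hF n : W1 F₀' n →+ W1 F₀ n`  (norm `normAlong (alphaB hF)`);
* both commute with `G_ℚ` (`rho_upW`, `rho_downW`).
-/
import Fermat.Agent.S48.BB.T.HeckeGen
import Fermat.Agent.S48.BB.E.Defs

set_option autoImplicit false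

noncomputable section

namespace Fermat.Agent.S43.Ops.New

open ModularCurve AlgebraicCurve
open Fermat.Agent.S24 Fermat.Agent.GAL.Mult Fermat.Agent.S48.BB
  Fermat.Agent.S48.BB.U Fermat.Agent.S48.BB.T Fermat.Agent.S48.BB.M Fermat.Agent.S48.BB.E
open Fermat.Agent.S37.HeckeInputs
open Fermat.Agent.GAL.E (GQ)
open scoped MatrixGroups

variable {F₀ F₀' : IntermediateField ℚ (LaurentSeries ℚ)} {H H' : Subgroup SL(2, ℤ)}
  {N N' : ℕ} [NeZero N] [NeZero N']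

theorem isKum_alphaB (hL : IsLvl F₀ H N) (hL' : IsLvl F₀' H' N') (hF : F₀ ≤ F₀') {n : ℕ}
    {u : FB F₀} (hu : IsKum (FB F₀) n u) : IsKum (FB F₀') n (alphaB hF u) := by
  have := isFF1 hL'
  exact dvd_ord_map (alphaB hF) (jB hL) (transcendental_jB hL) n u hu

theorem isKum_normAlong (hL : IsLvl F₀ H N) (hL' : IsLvl F₀' H' N') (hF : F₀ ≤ F₀') {n : ℕ}
    {y : FB F₀'} (hy : IsKum (FB F₀') n y) : IsKum (FB F₀) n (normAlong (alphaB hF) y) := by
  have := isFF1 hL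
  have := isFF1 hL'
  let _ := algebraAlong (alphaB hF)
  have h1 : IsScalarTower Kbar (FB F₀) (FB F₀') := isScalarTower_along (alphaB hF)
  have h2 : Module.Finite (FB F₀) (FB F₀') :=
    finiteAlong (alphaB hF) (jB hL) (transcendental_jB hL)
  exact dvd_ord_norm' (K := Kbar) (F := FB F₀) (F' := FB F₀') n y hy

/-- `π^*` on Kummer modules. -/
def upW (hL : IsLvl F₀ H N) (hL' : IsLvl F₀' H' N') (hF : F₀ ≤ F₀') (n : ℕ) :
    W1 F₀ n →+ W1 F₀' n :=
  mapW (Units.map ((alphaB hF : FB F₀ →+* FB F₀') : FB F₀ →* FB F₀'))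
    fun _ hu => isKum_alphaB hL hL' hF hu

/-- `π_*` on Kummer modules. -/
def downW (hL : IsLvl F₀ H N) (hL' : IsLvl F₀' H' N') (hF : F₀ ≤ F₀') (n : ℕ) :
    W1 F₀' n →+ W1 F₀ n :=
  mapW (Units.map (normAlong (alphaB hF))) fun _ hu => isKum_normAlong hL hL' hF hu

theorem upW_cls (hL : IsLvl F₀ H N) (hL' : IsLvl F₀' H' N') (hF : F₀ ≤ F₀') {n : ℕ}
    (u : kum (FB F₀) n) : upW hL hL' hF n (cls u) =
      cls ⟨Units.map ((alphaB hF : FB F₀ →+* FB F₀') : FB F₀ →* FB F₀') (u : (FB F₀)ˣ),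
        isKum_alphaB hL hL' hF u.2⟩ := rfl

theorem downW_cls (hL : IsLvl F₀ H N) (hL' : IsLvl F₀' H' N') (hF : F₀ ≤ F₀') {n : ℕ}
    (u : kum (FB F₀') n) : downW hL hL' hF n (cls u) =
      cls ⟨Units.map (normAlong (alphaB hF)) (u : (FB F₀')ˣ),
        isKum_normAlong hL hL' hF u.2⟩ := rfl

theorem galF_alphaB (hF : F₀ ≤ F₀') (σ : GQ) (u : FB F₀) :
    galF F₀' σ (alphaB hF u) = alphaB hF (galF F₀ σ u) := by
  apply Subtype.ext
  rw [coe_galF, coe_alphaB, coe_alphaB, coe_galF]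

theorem rho_upW (hL : IsLvl F₀ H N) (hL' : IsLvl F₀' H' N') (hF : F₀ ≤ F₀') (n : ℕ) (σ : GQ)
    (x : W1 F₀ n) : rho F₀' n σ (upW hL hL' hF n x) = upW hL hL' hF n (rho F₀ n σ x) := by
  obtain ⟨u, rfl⟩ := cls_surjective x
  rw [upW_cls, rho_cls, rho_cls, upW_cls]
  refine congrArg cls (Subtype.ext (Units.ext ?_))
  exact galF_alphaB hF σ _

end Fermat.Agent.S43.Ops.New

end
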