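/-
Row 37 (S43), block OPS (architect helper297), sub-block OPS-N (helper227).  MATRICES.

`q` prime, `q ∤ M`, `s q + v M = 1`.
* `rep s v h x`, `x : OnePoint (ZMod q)` : representatives of `Γ₀(qM) \ Γ₀(M)`:  `rep ∞ = 1`,
  `rep j = (1, j - v; M, M j + s q)`;  `rep_mem`, `rep_cover`, `rep_disj`.
* `eqv_AL_mul_rep` : for an Atkin-Lehner matrix `W = (q x, y; q M z, q t)` of determinant `q`,
  `W * rep j = η * (1 j; 0 q)` with `η ∈ Γ₀(qM)`.
-/
import Fermat.Agent.S43.Ops.Rel.Rep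
import Fermat.Agent.S48.BB.M.Bridge

set_option autoImplicit false

noncomputable section

namespace Fermat.Agent.S43.Ops.New

open ModularCurve UpperHalfPlane CongruenceSubgroup Matrix.SpecialLinearGroup
open Fermat.Agent.S24 Fermat.Agent.GAL.Mult Fermat.Agent.S48.BB Fermat.Agent.S43.Ops.Rel
open scoped MatrixGroups OnePoint

variable {q M : ℕ}

theorem mem_Gamma0_iff_dvd {N : ℕ} {γ : SL(2, ℤ)} : γ ∈ Gamma0 N ↔ (N : ℤ) ∣ γ 1 0 := by
  rw [Gamma0_mem, ZMod.intCast_zmod_eq_zero_iff_dvd]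

theorem mem_Gamma0_mul_iff (hqM : Nat.Coprime q M) {γ : SL(2, ℤ)} :
    γ ∈ Gamma0 (q * M) ↔ (q : ℤ) ∣ γ 1 0 ∧ (M : ℤ) ∣ γ 1 0 := by
  have hcop : IsCoprime (q : ℤ) (M : ℤ) := Nat.isCoprime_iff_coprime.2 hqM
  rw [mem_Gamma0_iff_dvd]
  push_cast
  constructor
  · intro h
    exact ⟨(Dvd.intro _ rfl).trans h, (Dvd.intro_left _ rfl).trans h⟩
  · rintro ⟨h1, h2⟩
    exact hcop.mul_dvd h1 h2

/-- `(1, b - v; M, M b + s q)` -/
def repZ {s v : ℤ} (h : s * q + v * M = 1) (b : ℤ) : SL(2, ℤ) :=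
  ⟨!![1, b - v; (M : ℤ), M * b + s * q], by
    rw [Matrix.det_fin_two_of]
    linear_combination h⟩

/-- representatives of `Γ₀(qM) \ Γ₀(M)` -/
def rep {s v : ℤ} (h : s * q + v * M = 1) : OnePoint (ZMod q) → SL(2, ℤ)
  | ∞ => 1
  | (j : ZMod q) => repZ h (j.val : ℤ)

variable {s v : ℤ} (h : s * q + v * M = 1)

@[simp] theorem rep_infty : rep h ∞ = 1 := rfl

@[simp] theorem rep_coe (j : ZMod q) : rep h (j : OnePoint (ZMod q)) = repZ h (j.val : ℤ) := rfl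

theorem repZ_mem (b : ℤ) : repZ h b ∈ Gamma0 M := by
  rw [mem_Gamma0_iff_dvd]
  exact dvd_refl _

theorem rep_mem (x : OnePoint (ZMod q)) : rep h x ∈ Gamma0 M := by
  induction x using OnePoint.rec with
  | infty => exact one_mem _
  | coe j => exact repZ_mem h _

theorem repZ_mul_apply (b : ℤ) (g : SL(2, ℤ)) :
    (repZ h b * g) 1 0 = M * g 0 0 + (M * b + s * q) * g 1 0 := by
  rw [Matrix.SpecialLinearGroup.coe_mul, Matrix.mul_apply, Fin.sum_univ_two]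
  rfl

include h in
theorem coprime_of_bezout : Nat.Coprime q M :=
  Nat.isCoprime_iff_coprime.1 ⟨s, v, h⟩

theorem rep_cover [Fact q.Prime] (g : SL(2, ℤ)) (hg : g ∈ Gamma0 M) :
    ∃ x, rep h x * g ∈ Gamma0 (q * M) := by
  have hqM := coprime_of_bezout h
  have hM : (M : ℤ) ∣ g 1 0 := mem_Gamma0_iff_dvd.1 hg
  by_cases hq : (q : ℤ) ∣ g 1 0
  · exact ⟨∞, by rw [rep_infty, one_mul]; exact (mem_Gamma0_mul_iff hqM).2 ⟨hq, hM⟩⟩
  · have hc : ((g 1 0 : ℤ) : ZMod q) ≠ 0 := by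
      rwa [Ne, ZMod.intCast_zmod_eq_zero_iff_dvd]
    refine ⟨((-((g 0 0 : ℤ) : ZMod q) / ((g 1 0 : ℤ) : ZMod q) : ZMod q) : OnePoint (ZMod q)), ?_⟩
    set j : ZMod q := -((g 0 0 : ℤ) : ZMod q) / ((g 1 0 : ℤ) : ZMod q) with hj
    rw [rep_coe, mem_Gamma0_mul_iff hqM, repZ_mul_apply]
    refine ⟨?_, Dvd.dvd.add (Dvd.intro _ rfl) (Dvd.dvd.mul_left hM _)⟩
    rw [← ZMod.intCast_zmod_eq_zero_iff_dvd]
    push_cast
    rw [ZMod.natCast_zmod_val, ZMod.natCast_self, hj]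
    field_simp
    ring

theorem repZ_notMem [Fact q.Prime] [NeZero M] (b : ℤ) : repZ h b ∉ Gamma0 (q * M) := by
  rw [mem_Gamma0_iff_dvd]
  show ¬ ((q * M : ℕ) : ℤ) ∣ (M : ℤ)
  intro hd
  have h1 : q * M ∣ M := by exact_mod_cast hd
  have h2 : q * M ≤ M := Nat.le_of_dvd (Nat.pos_of_ne_zero (NeZero.ne M)) h1
  have h3 : 2 ≤ q := (Fact.out : q.Prime).two_le
  have h4 : 0 < M := Nat.pos_of_ne_zero (NeZero.ne M)
  nlinarith

theorem repZ_mul_inv_apply (a b : ℤ) :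
    (repZ h a * (repZ h b)⁻¹) 1 0 = M * M * (b - a) := by
  rw [repZ_mul_apply, Matrix.SpecialLinearGroup.SL2_inv_expl]
  show (M : ℤ) * (M * b + s * q) + (M * a + s * q) * (-(M : ℤ)) = _
  ring

theorem rep_disj [Fact q.Prime] [NeZero M] (x y : OnePoint (ZMod q))
    (hxy : rep h x * (rep h y)⁻¹ ∈ Gamma0 (q * M)) : x = y := by
  have hqM := coprime_of_bezout h
  induction x using OnePoint.rec with
  | infty =>
    induction y using OnePoint.rec with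
    | infty => rfl
    | coe j =>
      rw [rep_infty, one_mul, inv_mem_iff] at hxy
      exact absurd hxy (repZ_notMem h _)
  | coe i =>
    induction y using OnePoint.rec with
    | infty =>
      rw [rep_infty, inv_one, mul_one] at hxy
      exact absurd hxy (repZ_notMem h _)
    | coe j =>
      rw [rep_coe, rep_coe, mem_Gamma0_mul_iff hqM, repZ_mul_inv_apply] at hxy
      have hcop : IsCoprime (q : ℤ) (M : ℤ) := Nat.isCoprime_iff_coprime.2 hqM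
      have h1 : (q : ℤ) ∣ (j.val : ℤ) - (i.val : ℤ) :=
        (hcop.mul_right hcop).dvd_of_dvd_mul_left hxy.1
      rw [← ZMod.intCast_zmod_eq_zero_iff_dvd] at h1
      push_cast at h1
      rw [ZMod.natCast_zmod_val, ZMod.natCast_zmod_val, sub_eq_zero] at h1
      rw [h1]

/-! ### The Atkin-Lehner matrix -/

theorem val_sl (γ : SL(2, ℤ)) :
    (((sl γ : GL(2, ℝ)⁺) : GL (Fin 2) ℝ) : Matrix (Fin 2) (Fin 2) ℝ) =
      γ.1.map (Int.cast : ℤ → ℝ) := by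
  ext i j; simp [coe_sl]

/-- `η = (q x + y M, y s - x v; q M (z + t), q t s - M z v)` -/
def eta {x y z t : ℤ} (hW : q * x * t - M * y * z = 1) : SL(2, ℤ) :=
  ⟨!![q * x + y * M, y * s - x * v; q * M * (z + t), q * t * s - M * z * v], by
    rw [Matrix.det_fin_two_of]
    linear_combination (q * x * t - M * y * z) * h + hW⟩

theorem eta_mem {x y z t : ℤ} (hW : q * x * t - M * y * z = 1) : eta h hW ∈ Gamma0 (q * M) := by
  rw [mem_Gamma0_iff_dvd]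
  show ((q * M : ℕ) : ℤ) ∣ q * M * (z + t)
  push_cast
  exact Dvd.intro _ rfl

/-- `W * rep j = η * (1 j; 0 q)` -/
theorem AL_mul_repZ [NeZero q] {x y z t : ℤ} (hW : q * x * t - M * y * z = 1) (Wm : GL(2, ℝ)⁺)
    (hWm : ((Wm : GL (Fin 2) ℝ) : Matrix (Fin 2) (Fin 2) ℝ) =
      !![(q * x : ℝ), y; q * M * z, q * t]) (j : ℕ) :
    Wm * sl (repZ h (j : ℤ)) = sl (eta h hW) * S48.BB.M.gU q j := by
  apply Subtype.ext
  apply Units.ext
  show ((Wm : GL (Fin 2) ℝ) : Matrix (Fin 2) (Fin 2) ℝ) *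
      (((sl (repZ h (j : ℤ)) : GL(2, ℝ)⁺) : GL (Fin 2) ℝ) : Matrix (Fin 2) (Fin 2) ℝ) =
    (((sl (eta h hW) : GL(2, ℝ)⁺) : GL (Fin 2) ℝ) : Matrix (Fin 2) (Fin 2) ℝ) *
      ((ModularForm.heckeMatrix q j : GL (Fin 2) ℝ) : Matrix (Fin 2) (Fin 2) ℝ)
  rw [hWm, val_sl, val_sl, ModularForm.val_heckeMatrix (NeZero.ne q)]
  ext a b
  fin_cases a <;> fin_cases b <;>
    simp [Matrix.mul_apply, Fin.sum_univ_two, repZ, eta] <;> ring

theorem eqv_AL_mul_rep [NeZero q] {x y z t : ℤ} (hW : q * x * t - M * y * z = 1) (Wm : GL(2, ℝ)⁺)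
    (hWm : ((Wm : GL (Fin 2) ℝ) : Matrix (Fin 2) (Fin 2) ℝ) =
      !![(q * x : ℝ), y; q * M * z, q * t]) (j : ZMod q) :
    Eqv (Gamma0 (q * M)) (Wm * sl (rep h (j : OnePoint (ZMod q)))) (S48.BB.M.gU q j.val) :=
  Eqv.of_eq (eta_mem h hW) (AL_mul_repZ h hW Wm hWm j.val)

end Fermat.Agent.S43.Ops.New

end
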