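/-
Row 37 (S43), block OPS (architect helper297), sub-block OPS-N (helper227).  MAIN RESULT.

Level `Γ₀(qM)`, `q` prime, `q ∤ M`;  `F0 = modularFunctionFieldFull (q * M)`, `FM = modularFunctionFieldFull M`.
For ANY operator `U_q` with the right `q`-expansion (`X : UOp F0 q`) and ANY map `w` of `FB F0` which is
`u ↦ u ∘ W` for an Atkin-Lehner matrix `W = (q x, y; q M z, q t)`, `det W = q`:

* `U_mul_w`  : `U_q u * w u = π^* π_* (w u)`   (`π^* = alphaB`, `π_* = normAlong alphaB`);
* `UW_add_wW`: on the Kummer modules, `U_q + w = π^* ∘ π_* ∘ w`.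
So `U_q = - w` on every part of `W1 F0 n` on which `π_*` vanishes (the `q`-new part).
-/
import Fermat.Agent.S43.Ops.New.Norm
import Fermat.Agent.S43.Ops.New.Mat
import Fermat.Agent.S43.Ops.New.Pi
import Fermat.Agent.S48.BB.V.LvlFull

set_option autoImplicit false

noncomputable section

namespace Fermat.Agent.S43.Ops.New

open ModularCurve UpperHalfPlane AlgebraicCurve CongruenceSubgroup
open Fermat.Agent.S24 Fermat.Agent.S24.B Fermat.Agent.GAL.Mult Fermat.Agent.S48.BB
  Fermat.Agent.S48.BB.U Fermat.Agent.S48.BB.T Fermat.Agent.S43.Ops.Rel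
  Fermat.Agent.S48.BB.M Fermat.Agent.S48.BB.E
open Fermat.Agent.S37.HeckeInputs
open scoped MatrixGroups OnePoint

/-- shortcut instance (the generic search times out) -/
local instance instDMANewMain : DistribMulAction GL(2, ℝ)⁺ MM := instActionMM.toDistribMulAction

/-- shortcut instance (the generic search times out) -/
local instance instMANewMain : MulAction GL(2, ℝ)⁺ MM := instDMANewMain.toMulAction

/-- shortcut instance (the generic search times out) -/
local instance instSANewMain : SemigroupAction GL(2, ℝ)⁺ MM := instMANewMain.toSemigroupAction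

variable (q M : ℕ) [NeZero q] [NeZero M]

/-- `FM ≤ F0` -/
theorem full_le : modularFunctionFieldFull M ≤ modularFunctionFieldFull (q * M) :=
  full_degeneracy_le (Dvd.intro_left q rfl)

/-- level `M`, seen at the auxiliary level `q * M` -/
theorem isLvl_full_up : IsLvl (modularFunctionFieldFull M) (Gamma0 M) (q * M) :=
  IsLvl.levelUp (V.isLvl_full M) (mul_comm M q)

variable {q M}

/-- `π^* π_*` (level `qM` to level `M` and back) is represented by `rep h x`. -/
theorem isRep_up_down (hq : q.Prime) {s v : ℤ} (h : s * q + v * M = 1) :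
    IsRep (V.isLvl_full (q * M))
      (fun y => alphaB (full_le q M) (normAlong (alphaB (full_le q M)) y))
      (fun x : OnePoint (ZMod q) => sl (rep h x)) := by
  have : Fact q.Prime := ⟨hq⟩
  exact isRep_alphaB_normAlong (isLvl_full_up q M) (V.isLvl_full (q * M)) (full_le q M) (rep h)
    (rep_mem h) (rep_cover h) (rep_disj h)

/-- **OPS-N**: `U_q u * w u = π^* π_* (w u)`. -/
theorem U_mul_w (hq : q.Prime) (hqM : Nat.Coprime q M)
    (X : Ops.U.UOp (modularFunctionFieldFull (q * M)) q)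
    (w : FB (modularFunctionFieldFull (q * M)) → FB (modularFunctionFieldFull (q * M)))
    (Wm : GL(2, ℝ)⁺) {x y z t : ℤ} (hW : q * x * t - M * y * z = 1)
    (hWm : ((Wm : GL (Fin 2) ℝ) : Matrix (Fin 2) (Fin 2) ℝ) =
      !![(q * x : ℝ), y; q * M * z, q * t])
    (hw : ∀ u, real (V.isLvl_full (q * M)) (w u) = Wm⁻¹ • real (V.isLvl_full (q * M)) u)
    (u : FB (modularFunctionFieldFull (q * M))) :
    X.U u * w u = alphaB (full_le q M) (normAlong (alphaB (full_le q M)) (w u)) := by
  obtain ⟨s, v, h⟩ : IsCoprime (q : ℤ) (M : ℤ) := Nat.isCoprime_iff_coprime.2 hqM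
  apply real_injective (V.isLvl_full (q * M))
  rw [isRep_up_down hq h (w u), HeckeBridge.prod_onePoint]
  dsimp only
  rw [rep_infty, map_one, inv_one, one_smul,
    map_mul, mul_comm, isRep_U (V.isLvl_full (q * M)) NiceFrac.T_mem_Gamma0 X u]
  congr 1
  refine Finset.prod_congr rfl fun j _ => ?_
  rw [hw, ← mul_smul, ← mul_inv_rev]
  exact ((eqv_AL_mul_rep h hW Wm hWm j).smul_real (V.isLvl_full (q * M)) u).symm

/-- **OPS-N on Kummer modules**: `U_q + w = π^* ∘ π_* ∘ w`. -/
theorem UW_add_wW (hq : q.Prime) (hqM : Nat.Coprime q M)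
    (X : Ops.U.UOp (modularFunctionFieldFull (q * M)) q)
    (w : FB (modularFunctionFieldFull (q * M)) ≃ₐ[Kbar] FB (modularFunctionFieldFull (q * M)))
    (Wm : GL(2, ℝ)⁺) {x y z t : ℤ} (hW : q * x * t - M * y * z = 1)
    (hWm : ((Wm : GL (Fin 2) ℝ) : Matrix (Fin 2) (Fin 2) ℝ) =
      !![(q * x : ℝ), y; q * M * z, q * t])
    (hw : ∀ u, real (V.isLvl_full (q * M)) (w u) = Wm⁻¹ • real (V.isLvl_full (q * M)) u)
    (n : ℕ) (a : W1 (modularFunctionFieldFull (q * M)) n) :
    X.UW n a + autW w n a =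
      upW (V.isLvl_full M) (V.isLvl_full (q * M)) (full_le q M) n
        (downW (V.isLvl_full M) (V.isLvl_full (q * M)) (full_le q M) n (autW w n a)) := by
  obtain ⟨u, rfl⟩ := cls_surjective a
  rw [X.UW_cls, autW_cls, downW_cls, upW_cls, ← cls_mul]
  refine congrArg cls (Subtype.ext (Units.ext ?_))
  exact U_mul_w hq hqM X w Wm hW hWm hw _

/-- `U_q = - w` where `π_* ∘ w` vanishes. -/
theorem UW_eq_neg_wW (hq : q.Prime) (hqM : Nat.Coprime q M)
    (X : Ops.U.UOp (modularFunctionFieldFull (q * M)) q)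
    (w : FB (modularFunctionFieldFull (q * M)) ≃ₐ[Kbar] FB (modularFunctionFieldFull (q * M)))
    (Wm : GL(2, ℝ)⁺) {x y z t : ℤ} (hW : q * x * t - M * y * z = 1)
    (hWm : ((Wm : GL (Fin 2) ℝ) : Matrix (Fin 2) (Fin 2) ℝ) =
      !![(q * x : ℝ), y; q * M * z, q * t])
    (hw : ∀ u, real (V.isLvl_full (q * M)) (w u) = Wm⁻¹ • real (V.isLvl_full (q * M)) u)
    (n : ℕ) (a : W1 (modularFunctionFieldFull (q * M)) n)
    (ha : downW (V.isLvl_full M) (V.isLvl_full (q * M)) (full_le q M) n (autW w n a) = 0) :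
    X.UW n a = - autW w n a := by
  have h := UW_add_wW hq hqM X w Wm hW hWm hw n a
  rw [ha, map_zero] at h
  exact (eq_neg_iff_add_eq_zero (G := W1 (modularFunctionFieldFull (q * M)) n)).2 h

end Fermat.Agent.S43.Ops.New

end
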