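/-
Row 37 (S43), block OPS, sub-block OPS-N (helper227).
THE NORM FROM LEVEL `Γ₀(N')`, `N' = M q`, TO LEVEL `Γ₀(M)` COMMUTES WITH `T_l` (`l ∤ M q`), in the language of `S48/BB`
(`FB`, `alphaB`, `normAlong`, `HeckeOp1` with trivial diamond, `Ops.Pi.piDown`).
Transport of `S36.Norm.normAlpha_heckeF`.
-/
import Fermat.Agent.S36.Norm.Main
import Fermat.Agent.GAL.E.QExp
import Fermat.Agent.S43.Ops.Pi.Kum

set_option autoImplicit false

noncomputable section

namespace Fermat.Agent.S43.Ops.New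

open ModularCurve AlgebraicCurve
open Fermat.Agent.S24 Fermat.Agent.S24.B Fermat.Agent.S48.BB
  Fermat.Agent.S48.BB.T Fermat.Agent.S48.BB.M Fermat.Agent.S48.BB.E
open Fermat.Agent.S37.HeckeInputs
open Fermat.Agent.GAL.E (qExpand_injective')

variable {M q l : ℕ} [NeZero M] [NeZero q] [NeZero l]

theorem alphaB_eq_heckeAlphaBar
    (hF : modularFunctionFieldFull M ≤ modularFunctionFieldFull (M * q)) :
    alphaB hF = heckeAlphaBar Kbar M q := by
  refine AlgHom.ext fun u => Subtype.ext ?_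
  rw [coe_alphaB, coe_heckeAlphaBar]

theorem normAlong_alphaB_eq_normAlpha
    (hF : modularFunctionFieldFull M ≤ modularFunctionFieldFull (M * q)) :
    normAlong (alphaB hF) = GAL.E.normAlpha M q := by
  rw [alphaB_eq_heckeAlphaBar]
  rfl

/-- an operator with the `q`-expansion of `T_l` (trivial diamond) is `heckeF` -/
theorem eq_heckeF_of_qExpand {N : ℕ} [NeZero N] (hl : l.Prime) (hlN : ¬ l ∣ N)
    (T : FB (modularFunctionFieldFull N) → FB (modularFunctionFieldFull N))
    (hT : ∀ u, qExpand Kbar l ((T u : FB (modularFunctionFieldFull N)) : LaurentSeries Kbar) =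
      qExpand Kbar (l * l) (u : LaurentSeries Kbar) *
        ∏ b ∈ Finset.range l, twist (zetaK l ^ b) (u : LaurentSeries Kbar))
    (u : FB (modularFunctionFieldFull N)) : T u = GAL.E.heckeF N l u := by
  refine Subtype.ext (qExpand_injective' l ?_)
  rw [hT, GAL.E.qExpand_heckeF N l hl hlN]

/-- **The norm commutes with `T_l`** (functions; `N' = M * q`). -/
theorem normAlong_T {N' : ℕ} [NeZero N'] (hN' : N' = M * q) (hl : l.Prime) (hlN : ¬ l ∣ N')
    (hF : modularFunctionFieldFull M ≤ modularFunctionFieldFull N')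
    (T₀ : FB (modularFunctionFieldFull M) → FB (modularFunctionFieldFull M))
    (hT₀ : ∀ u, qExpand Kbar l ((T₀ u : FB (modularFunctionFieldFull M)) : LaurentSeries Kbar) =
      qExpand Kbar (l * l) (u : LaurentSeries Kbar) *
        ∏ b ∈ Finset.range l, twist (zetaK l ^ b) (u : LaurentSeries Kbar))
    (T₁ : FB (modularFunctionFieldFull N') → FB (modularFunctionFieldFull N'))
    (hT₁ : ∀ u, qExpand Kbar l ((T₁ u : FB (modularFunctionFieldFull N')) : LaurentSeries Kbar) =
      qExpand Kbar (l * l) (u : LaurentSeries Kbar) *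
        ∏ b ∈ Finset.range l, twist (zetaK l ^ b) (u : LaurentSeries Kbar))
    (y : FB (modularFunctionFieldFull N')) :
    normAlong (alphaB hF) (T₁ y) = T₀ (normAlong (alphaB hF) y) := by
  subst hN'
  have hlM : ¬ l ∣ M := fun h => hlN (h.mul_right _)
  rw [eq_heckeF_of_qExpand hl hlN T₁ hT₁, eq_heckeF_of_qExpand hl hlM T₀ hT₀,
    normAlong_alphaB_eq_normAlpha]
  exact S36.Norm.normAlpha_heckeF M q l hl hlN y

/-- **`π_*` commutes with `T_l`** (Kummer modules; `N' = M * q`, trivial diamonds). -/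
theorem piDown_TW {N' : ℕ} [NeZero N'] (hN' : N' = M * q) (hl : l.Prime) (hlN : ¬ l ∣ N')
    (X : Pi.Pair (modularFunctionFieldFull M) (modularFunctionFieldFull N'))
    (T₀ : HeckeOp1 (modularFunctionFieldFull M) l) (h₀ : ∀ u, T₀.D u = u)
    (T₁ : HeckeOp1 (modularFunctionFieldFull N') l) (h₁ : ∀ u, T₁.D u = u)
    (n : ℕ) (x : W1 (modularFunctionFieldFull N') n) :
    Pi.piDown X n (T₁.TW n x) = T₀.TW n (Pi.piDown X n x) := by
  obtain ⟨u, rfl⟩ := cls_surjective x
  rw [Pi.piDown_cls, T₁.TW_cls, T₀.TW_cls, Pi.piDown_cls]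
  refine congrArg cls (Subtype.ext (Units.ext ?_))
  exact normAlong_T hN' hl hlN X.le T₀.T (fun u => by rw [T₀.qExpand_T, h₀]) T₁.T
    (fun u => by rw [T₁.qExpand_T, h₁]) _

end Fermat.Agent.S43.Ops.New

end
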