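/-
Row 37 (S43), blocks OPS-N / L0 (helper227).  `U_q = - w_q` ON THE `m`-PART AT LEVEL `Γ₀(q M)`.

`F0 = modularFunctionFieldFull (q * M)`, `FM = modularFunctionFieldFull M`, `w0 hc` the Atkin-Lehner involution of `FB F0`
(`Ops/New/W0.lean`; it is the restriction of helper297's `w hc`), `P : Pi.Pair FM F0` (helper185's `π^*`, `π_*`).
* `U_mul_w0`      : `U u * w0 u = π^* π_* (w0 u)` for ANY map `U` with the `q`-expansion of `U_q`;
* `UW_add_w0W`, `UqW_add_w0W` : `U_q + w0 = π^* ∘ π_* ∘ w0` on `W1 F0 n` (contracts `UOp`, `UqOp`);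
* `abs_new`, `abs_new_sq`, `abs_new_conj` : ABSTRACT: if the `m`-part at level `M` vanishes then on the `m`-part at level `q M`
  `U = - w`, `U ∘ U = id`, `w ∘ U ∘ w = U`;
* `UW_eq_neg_w0W`, `UW_UW`, `w0W_UW_w0W` : the concrete statements, `m`-part `= LocZ.loc (T_l - c_l)`.
-/
import Fermat.Agent.S43.Ops.New.W0
import Fermat.Agent.S43.Ops.New.Main
import Fermat.Agent.S43.Ops.New.TNorm
import Fermat.Agent.S43.Ops.Uq.Contract
import Fermat.Agent.S43.H.LocZ

set_option autoImplicit false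

noncomputable section

namespace Fermat.Agent.S43.Ops.New

open ModularCurve UpperHalfPlane AlgebraicCurve CongruenceSubgroup
open Fermat.Agent.S24 Fermat.Agent.S24.B Fermat.Agent.GAL.Mult Fermat.Agent.S48.BB
  Fermat.Agent.S48.BB.U Fermat.Agent.S48.BB.T Fermat.Agent.S43.Ops.Rel
  Fermat.Agent.S48.BB.M Fermat.Agent.S48.BB.E
open Fermat.Agent.S37.HeckeInputs
open scoped MatrixGroups OnePoint

/-- shortcut instance (the generic search times out) -/
local instance instDMANewL : DistribMulAction GL(2, ℝ)⁺ MM := instActionMM.toDistribMulAction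

/-- shortcut instance (the generic search times out) -/
local instance instMANewL : MulAction GL(2, ℝ)⁺ MM := instDMANewL.toMulAction

/-- shortcut instance (the generic search times out) -/
local instance instSANewL : SemigroupAction GL(2, ℝ)⁺ MM := instMANewL.toSemigroupAction

/-! ### functions -/

/-- a map with the `q`-expansion of `U_q` is represented by the matrices `(1 j; 0 q)` -/
theorem isRep_of_qExpand {F₀ : IntermediateField ℚ (LaurentSeries ℚ)} {H : Subgroup SL(2, ℤ)}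
    {N : ℕ} [NeZero N] (hL : IsLvl F₀ H N) (hT : ModularGroup.T ∈ H) {q : ℕ} [NeZero q]
    (Uq : FB F₀ → FB F₀)
    (hU : ∀ u : FB F₀, qExpand Kbar q ((Uq u : FB F₀) : LaurentSeries Kbar) =
      ∏ b ∈ Finset.range q, twist (zetaK q ^ b) (u : LaurentSeries Kbar)) :
    IsRep hL Uq (fun j : ZMod q => M.gU q j.val) := by
  intro u
  have h1 := M.isNice_real hL hT (1 : FB F₀)
  have h := (M.isNice_real hL hT u).eq_smul_mul_prod (ℓ := q) h1 (M.isNice_real hL hT (Uq u)) (by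
    rw [hU, M.Q2]
    simp)
  rw [h, map_one, smul_one, one_mul]

variable {q M : ℕ} [NeZero q] [NeZero M]

theorem val_wG (hc : Nat.Coprime q M) :
    (((wG hc : GL(2, ℝ)⁺) : GL (Fin 2) ℝ) : Matrix (Fin 2) (Fin 2) ℝ) =
      !![(q * (wx q M : ℤ) : ℝ), (wy q M : ℤ); q * M * ((1 : ℤ) : ℝ), q * ((1 : ℤ) : ℝ)] := by
  show (wMat q M).map (Int.cast : ℤ → ℝ) = _
  rw [wMat]
  ext i j
  fin_cases i <;> fin_cases j <;> simp

/-- **OPS-N** for `w0`: `U u * w0 u = π^* π_* (w0 u)`. -/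
theorem U_mul_w0 (hq : q.Prime) (hc : Nat.Coprime q M)
    (Uq : FB (modularFunctionFieldFull (q * M)) → FB (modularFunctionFieldFull (q * M)))
    (hU : ∀ u, qExpand Kbar q
        ((Uq u : FB (modularFunctionFieldFull (q * M))) : LaurentSeries Kbar) =
      ∏ b ∈ Finset.range q, twist (zetaK q ^ b) (u : LaurentSeries Kbar))
    (hF : modularFunctionFieldFull M ≤ modularFunctionFieldFull (q * M))
    (u : FB (modularFunctionFieldFull (q * M))) :
    Uq u * w0 hc u = alphaB hF (normAlong (alphaB hF) (w0 hc u)) := by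
  obtain ⟨s, v, h⟩ : IsCoprime (q : ℤ) (M : ℤ) := Nat.isCoprime_iff_coprime.2 hc
  apply real_injective (V.isLvl_full (q * M))
  rw [isRep_up_down hq h (w0 hc u), HeckeBridge.prod_onePoint]
  dsimp only
  rw [rep_infty, map_one, inv_one, one_smul, map_mul, mul_comm,
    isRep_of_qExpand (V.isLvl_full (q * M)) NiceFrac.T_mem_Gamma0 Uq hU u]
  congr 1
  refine Finset.prod_congr rfl fun j _ => ?_
  rw [real_w0 hc, ← mul_smul, ← mul_inv_rev]
  exact ((eqv_AL_mul_rep h (wxy' hc) (wG hc) (val_wG hc) j).smul_real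
    (V.isLvl_full (q * M)) u).symm

/-! ### Kummer modules -/

/-- `U_q + w0 = π^* ∘ π_* ∘ w0` (contract `UOp`). -/
theorem UW_add_w0W (hq : q.Prime) (hc : Nat.Coprime q M)
    (X : Ops.U.UOp (modularFunctionFieldFull (q * M)) q)
    (P : Pi.Pair (modularFunctionFieldFull M) (modularFunctionFieldFull (q * M)))
    (n : ℕ) (a : W1 (modularFunctionFieldFull (q * M)) n) :
    X.UW n a + autW (w0 hc) n a = Pi.piUp P n (Pi.piDown P n (autW (w0 hc) n a)) := by
  obtain ⟨u, rfl⟩ := cls_surjective a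
  rw [X.UW_cls, autW_cls, Pi.piDown_cls, Pi.piUp_cls, ← cls_mul]
  refine congrArg cls (Subtype.ext (Units.ext ?_))
  exact U_mul_w0 hq hc X.U X.qExpand_U P.le _

/-- `U_q + w0 = π^* ∘ π_* ∘ w0` (contract `UqOp`). -/
theorem UqW_add_w0W (hq : q.Prime) (hc : Nat.Coprime q M)
    (X : Ops.Uq.UqOp (modularFunctionFieldFull (q * M)) q)
    (P : Pi.Pair (modularFunctionFieldFull M) (modularFunctionFieldFull (q * M)))
    (n : ℕ) (hn : n.Coprime 6) (a : W1 (modularFunctionFieldFull (q * M)) n) :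
    X.UW n hn a + autW (w0 hc) n a = Pi.piUp P n (Pi.piDown P n (autW (w0 hc) n a)) := by
  obtain ⟨u, rfl⟩ := cls_surjective a
  rw [X.UW_cls, autW_cls, Pi.piDown_cls, Pi.piUp_cls, ← cls_mul]
  refine congrArg cls (Subtype.ext (Units.ext ?_))
  exact U_mul_w0 hq hc X.U X.qExpand_U P.le _

/-- the pair of levels `Γ₀(M)`, `Γ₀(q M)` -/
theorem pairM (q M : ℕ) [NeZero q] [NeZero M] :
    Pi.Pair (modularFunctionFieldFull M) (modularFunctionFieldFull (q * M)) :=
  Pi.pair_of_isLvl (V.isLvl_full M) (V.isLvl_full (q * M)) (full_le q M)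

/-! ### the abstract argument -/

section Abs

variable {A B ι : Type*} [AddCommGroup A] [AddCommGroup B] {U w : A →+ A} {up : B →+ A}
  {dn : A →+ B} {t : ι → A →+ A} {s : ι → B →+ B}

/-- `U = - w` on the `m`-part, if the `m`-part of the lower level vanishes. -/
theorem abs_new (hrel : ∀ a, U a + w a = up (dn (w a)))
    (hwt : ∀ i a, w (t i a) = t i (w a)) (hdn : ∀ i a, dn (t i a) = s i (dn a))
    (hB : ∀ b ∈ LocZ.loc s, b = 0) {a : A} (ha : a ∈ LocZ.loc t) : U a = - w a := by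
  have h1 : w a ∈ LocZ.loc t := LocZ.map_mem_loc w hwt ha
  have h2 : dn (w a) = 0 := hB _ (LocZ.map_mem_loc dn hdn h1)
  have h3 := hrel a
  rw [h2, map_zero] at h3
  exact eq_neg_of_add_eq_zero_left h3

theorem abs_new_sq (hrel : ∀ a, U a + w a = up (dn (w a))) (hww : ∀ a, w (w a) = a)
    (hwt : ∀ i a, w (t i a) = t i (w a)) (hdn : ∀ i a, dn (t i a) = s i (dn a))
    (hB : ∀ b ∈ LocZ.loc s, b = 0) {a : A} (ha : a ∈ LocZ.loc t) : U (U a) = a := by
  have h1 : w a ∈ LocZ.loc t := LocZ.map_mem_loc w hwt ha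
  rw [abs_new hrel hwt hdn hB ha, map_neg, abs_new hrel hwt hdn hB h1, hww, neg_neg]

theorem abs_new_conj (hrel : ∀ a, U a + w a = up (dn (w a))) (hww : ∀ a, w (w a) = a)
    (hwt : ∀ i a, w (t i a) = t i (w a)) (hdn : ∀ i a, dn (t i a) = s i (dn a))
    (hB : ∀ b ∈ LocZ.loc s, b = 0) {a : A} (ha : a ∈ LocZ.loc t) : w (U (w a)) = U a := by
  have h1 : w a ∈ LocZ.loc t := LocZ.map_mem_loc w hwt ha
  rw [abs_new hrel hwt hdn hB ha, abs_new hrel hwt hdn hB h1, hww, map_neg]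

/-- `T - c` -/
def subZ (T : A →+ A) (c : ℤ) : A →+ A := T - c • AddMonoidHom.id A

theorem subZ_apply (T : A →+ A) (c : ℤ) (x : A) : subZ T c x = T x - c • x := rfl

theorem map_subZ (f : A →+ B) {T : A →+ A} {S : B →+ B} (h : ∀ x, f (T x) = S (f x)) (c : ℤ)
    (x : A) : f (subZ T c x) = subZ S c (f x) := by
  rw [subZ_apply, subZ_apply, map_sub, map_zsmul, h]

end Abs

/-! ### the concrete statements -/

section Concrete

variable (hq : q.Prime) (hc : Nat.Coprime q M) (n : ℕ) {ι : Type*} (l : ι → ℕ)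
  [∀ i, NeZero (l i)] (hl : ∀ i, (l i).Prime) (hlN : ∀ i, ¬ l i ∣ q * M) (c : ι → ℤ)
  (T₁ : ∀ i, HeckeOp1 (modularFunctionFieldFull (q * M)) (l i)) (h₁ : ∀ i u, (T₁ i).D u = u)
  (T₀ : ∀ i, HeckeOp1 (modularFunctionFieldFull M) (l i)) (h₀ : ∀ i u, (T₀ i).D u = u)

/-- `T_l - c_l` at the level of `T` -/
def tOp {F₀ : IntermediateField ℚ (LaurentSeries ℚ)} (T : ∀ i, HeckeOp1 F₀ (l i)) (i : ι) :
    W1 F₀ n →+ W1 F₀ n := subZ (A := W1 F₀ n) ((T i).TW n) (c i)

theorem tOp_apply {F₀ : IntermediateField ℚ (LaurentSeries ℚ)} (T : ∀ i, HeckeOp1 F₀ (l i))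
    (i : ι) (x : W1 F₀ n) : tOp n l c T i x = (T i).TW n x - c i • x := rfl

include hl hlN h₁ in
theorem w0W_tOp (i : ι) (a : W1 (modularFunctionFieldFull (q * M)) n) :
    autW (w0 hc) n (tOp n l c T₁ i a) = tOp n l c T₁ i (autW (w0 hc) n a) :=
  map_subZ (A := W1 (modularFunctionFieldFull (q * M)) n)
    (B := W1 (modularFunctionFieldFull (q * M)) n) (autW (w0 hc) n) (w0W_TW hc (hl i) (hlN i) (T₁ i) (h₁ i) n) (c i) a

include hl hlN h₁ h₀ in
theorem piDown_tOp (i : ι) (a : W1 (modularFunctionFieldFull (q * M)) n) :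
    Pi.piDown (pairM q M) n (tOp n l c T₁ i a) = tOp n l c T₀ i (Pi.piDown (pairM q M) n a) :=
  map_subZ (A := W1 (modularFunctionFieldFull (q * M)) n)
    (B := W1 (modularFunctionFieldFull M) n) (Pi.piDown (pairM q M) n)
    (piDown_TW (mul_comm q M) (hl i) (hlN i) (pairM q M) (T₀ i) (h₀ i) (T₁ i) (h₁ i) n) (c i) a

include hq hl hlN h₁ h₀ in
/-- **`U_q = - w_q` on the `m`-part** (if the `m`-part at level `M` vanishes). -/
theorem UW_eq_neg_w0W (X : Ops.U.UOp (modularFunctionFieldFull (q * M)) q)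
    (hM : ∀ b : W1 (modularFunctionFieldFull M) n,
      b ∈ LocZ.loc (A := W1 (modularFunctionFieldFull M) n) (tOp n l c T₀) → b = 0)
    {a : W1 (modularFunctionFieldFull (q * M)) n}
    (ha : a ∈ LocZ.loc (A := W1 (modularFunctionFieldFull (q * M)) n) (tOp n l c T₁)) :
    X.UW n a = - autW (w0 hc) n a :=
  abs_new (A := W1 (modularFunctionFieldFull (q * M)) n) (B := W1 (modularFunctionFieldFull M) n)
    (U := X.UW n) (w := autW (w0 hc) n) (UW_add_w0W hq hc X (pairM q M) n)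
    (w0W_tOp hc n l hl hlN c T₁ h₁) (piDown_tOp n l hl hlN c T₁ h₁ T₀ h₀) hM ha

include hq hc hl hlN h₁ h₀ in
/-- **`U_q ^ 2 = 1` on the `m`-part.** -/
theorem UW_UW (X : Ops.U.UOp (modularFunctionFieldFull (q * M)) q)
    (hM : ∀ b : W1 (modularFunctionFieldFull M) n,
      b ∈ LocZ.loc (A := W1 (modularFunctionFieldFull M) n) (tOp n l c T₀) → b = 0)
    {a : W1 (modularFunctionFieldFull (q * M)) n}
    (ha : a ∈ LocZ.loc (A := W1 (modularFunctionFieldFull (q * M)) n) (tOp n l c T₁)) :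
    X.UW n (X.UW n a) = a :=
  abs_new_sq (A := W1 (modularFunctionFieldFull (q * M)) n)
    (B := W1 (modularFunctionFieldFull M) n) (U := X.UW n) (w := autW (w0 hc) n) (UW_add_w0W hq hc X (pairM q M) n)
    (w0W_w0W hc n) (w0W_tOp hc n l hl hlN c T₁ h₁) (piDown_tOp n l hl hlN c T₁ h₁ T₀ h₀) hM ha

include hq hl hlN h₁ h₀ in
/-- **`U_q^t = w U_q w = U_q` on the `m`-part.** -/
theorem w0W_UW_w0W (X : Ops.U.UOp (modularFunctionFieldFull (q * M)) q)
    (hM : ∀ b : W1 (modularFunctionFieldFull M) n,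
      b ∈ LocZ.loc (A := W1 (modularFunctionFieldFull M) n) (tOp n l c T₀) → b = 0)
    {a : W1 (modularFunctionFieldFull (q * M)) n}
    (ha : a ∈ LocZ.loc (A := W1 (modularFunctionFieldFull (q * M)) n) (tOp n l c T₁)) :
    autW (w0 hc) n (X.UW n (autW (w0 hc) n a)) = X.UW n a :=
  abs_new_conj (A := W1 (modularFunctionFieldFull (q * M)) n)
    (B := W1 (modularFunctionFieldFull M) n) (U := X.UW n) (w := autW (w0 hc) n) (UW_add_w0W hq hc X (pairM q M) n)
    (w0W_w0W hc n) (w0W_tOp hc n l hl hlN c T₁ h₁) (piDown_tOp n l hl hlN c T₁ h₁ T₀ h₀) hM ha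

end Concrete

end Fermat.Agent.S43.Ops.New

end
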